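import Fermat.Agent.SelbergStructure.Invariants
import Fermat.Agent.SelbergClass.Pairing

/-!
# The functional equation to the left of `re s = 1`

The reflection ratio is holomorphic on `re s < 1`, so the functional equation extends there.
-/

set_option autoImplicit false

noncomputable section

open Complex Filter Topology
open scoped Real ComplexConjugate
open FA.DegreeGap (HasFunctionalEquation pt pt_re one_sub_conj_pt)
open FA.DegreeOne (reflRatio conj_inv_eq)

namespace FA.SelbergMultiplicity

variable {a b : ℕ → ℂ} {m m' : ℕ} {E E' : ℂ → ℂ} {r : ℕ} {lam : Fin r → ℝ} {mu : Fin r → ℂ}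
  {Q : ℝ} {omega : ℂ}

theorem differentiableAt_reflRatio (hlam : ∀ j, 0 < lam j) (hmu : ∀ j, 0 ≤ (mu j).re) (hQ : 0 < Q)
    {s : ℂ} (hs : s.re < 1) : DifferentiableAt ℂ (reflRatio lam mu Q) s := by
  unfold FA.DegreeOne.reflRatio
  refine ((((differentiableAt_const _).sub (differentiableAt_id.const_mul _))).const_cpow
    (Or.inl (ofReal_ne_zero.2 hQ.ne'))).mul (DifferentiableAt.fun_finsetProd fun j _ =>
      DifferentiableAt.mul ?_ ?_)
  · have hpos : 0 < ((lam j : ℂ) * (1 - conj s) + mu j).re := by
      simp only [add_re, re_ofReal_mul, sub_re, one_re, Complex.conj_re]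
      have := mul_pos (hlam j) (show 0 < 1 - s.re by linarith)
      linarith [hmu j]
    have h1 : DifferentiableAt ℂ (fun w => Complex.Gamma ((lam j : ℂ) * (1 - w) + mu j)) (conj s) :=
      (Complex.differentiableAt_Gamma _ fun n e => by
        have h2 := congrArg Complex.re e
        simp only [Complex.neg_re, Complex.natCast_re] at h2
        linarith [Nat.cast_nonneg (α := ℝ) n]).fun_comp' (conj s)
          (((differentiableAt_id.const_sub _).const_mul _).add_const _)
    have h2 := h1.conj_conj
    rw [Complex.conj_conj] at h2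
    exact h2
  · exact (Complex.differentiable_one_div_Gamma _).fun_comp' s
      ((differentiableAt_id.const_mul _).add_const _)

theorem isPreconnected_left (c : ℝ) : IsPreconnected {z : ℂ | z.re < c} :=
  (convex_halfSpace_re_lt c).isPreconnected

theorem isPreconnected_right (c : ℝ) : IsPreconnected {z : ℂ | c < z.re} :=
  (convex_halfSpace_re_gt c).isPreconnected

/-- **The functional equation on `re s < 1`.** -/
theorem reflect (h : HasFunctionalEquation a m E lam mu Q omega) {s : ℂ} (hs : s.re < 1) :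
    E s * (-s) ^ m = (s - 1) ^ m * (omega * reflRatio lam mu Q s * conj (E (1 - conj s))) := by
  have hU : IsOpen {z : ℂ | z.re < 1} := isOpen_lt Complex.continuous_re continuous_const
  have hconj : Differentiable ℂ fun z => conj (E (1 - conj z)) := fun z => by
    have h1 : DifferentiableAt ℂ (fun w => E (1 - w)) (conj z) :=
      (h.differentiable _).fun_comp' (conj z) (differentiableAt_id.const_sub _)
    have h2 := h1.conj_conj
    rw [Complex.conj_conj] at h2
    exact h2
  have hr : DifferentiableOn ℂ (fun z => (z - 1) ^ m *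
      (omega * reflRatio lam mu Q z * conj (E (1 - conj z)))) {z : ℂ | z.re < 1} := fun z hz =>
    (DifferentiableAt.mul (by fun_prop) (((differentiableAt_reflRatio h.lam_pos h.mu_re h.Q_pos
      hz).const_mul omega).mul (hconj z))).differentiableWithinAt
  refine AnalyticOnNhd.eqOn_of_preconnected_of_eventuallyEq
    ((h.differentiable.mul (by fun_prop : Differentiable ℂ fun z : ℂ => (-z) ^ m)
      ).differentiableOn.analyticOnNhd hU) (hr.analyticOnNhd hU) (isPreconnected_left 1)
    (show (-1 : ℂ) ∈ {z : ℂ | z.re < 1} by simp) ?_ hs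
  filter_upwards [(isOpen_lt Complex.continuous_re continuous_const).mem_nhds
    (show (-1 : ℂ) ∈ {z : ℂ | z.re < 0} by simp)] with z hz
  have hw : 1 < (1 - conj z).re := by
    have : z.re < 0 := hz
    simp
    linarith
  rw [Pi.mul_apply, h.functional_equation z hz, h.eq_series _ hw, map_mul, map_mul, map_pow,
    map_sub, map_sub, map_one, Complex.conj_conj, ← conj_inv_eq h.Q_pos z]
  ring

/-- Two series with analytic quotient. -/
theorem eq_quotient (h : HasFunctionalEquation a m E lam mu Q omega) {r' : ℕ} {lam' : Fin r' → ℝ}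
    {mu' : Fin r' → ℂ} {Q' : ℝ} {omega' : ℂ}
    (h' : HasFunctionalEquation b m' E' lam' mu' Q' omega') {c : ℕ → ℂ} {θ : ℝ} (hθ : θ < 1)
    (hc : ∀ s : ℂ, θ < s.re → LSeriesSummable c s)
    (hL : ∀ s : ℂ, 1 < s.re → LSeries a s = LSeries c s * LSeries b s) {s : ℂ} (hs : θ < s.re) :
    E s * (s - 1) ^ m' = LSeries c s * E' s * (s - 1) ^ m := by
  have hU : IsOpen {z : ℂ | θ < z.re} := isOpen_lt continuous_const Complex.continuous_re
  have hsub : {z : ℂ | θ < z.re} ⊆ {z : ℂ | LSeries.abscissaOfAbsConv c < z.re} := fun z hz =>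
    (LSeries.abscissaOfAbsConv_le_of_forall_lt_LSeriesSummable (x := θ) fun y hy =>
      hc y (by simpa using hy)).trans_lt (EReal.coe_lt_coe_iff.2 hz)
  refine AnalyticOnNhd.eqOn_of_preconnected_of_eventuallyEq
    ((h.differentiable.mul (by fun_prop : Differentiable ℂ fun z : ℂ => (z - 1) ^ m')
      ).differentiableOn.analyticOnNhd hU)
    ((((LSeries_differentiableOn c).mono hsub).mul h'.differentiable.differentiableOn).mul
      (by fun_prop : Differentiable ℂ fun z : ℂ => (z - 1) ^ m).differentiableOn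
      |>.analyticOnNhd hU) (isPreconnected_right θ)
    (show (2 : ℂ) ∈ {z : ℂ | θ < z.re} by simp; linarith) ?_ hs
  filter_upwards [(isOpen_lt continuous_const Complex.continuous_re).mem_nhds
    (show (2 : ℂ) ∈ {z : ℂ | 1 < z.re} by simp)] with z hz
  simp only [Pi.mul_apply, h.eq_series z hz, h'.eq_series z hz, hL z hz]
  ring

/-- **The quotient reflects on a line inside the strip.** -/
theorem quotient_reflection (h : HasFunctionalEquation a m E lam mu Q omega) {r' : ℕ}
    {lam' : Fin r' → ℝ} {mu' : Fin r' → ℂ} {Q' : ℝ} {omega' : ℂ}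
    (h' : HasFunctionalEquation b m' E' lam' mu' Q' omega') (hb : b 1 ≠ 0) {c : ℕ → ℂ} {θ : ℝ}
    (hθ0 : 0 ≤ θ) (hc : ∀ s : ℂ, θ < s.re → LSeriesSummable c s)
    (hL : ∀ s : ℂ, 1 < s.re → LSeries a s = LSeries c s * LSeries b s) {σ : ℝ} (hσ : θ < σ)
    (hσ' : θ < 1 - σ) (t : ℝ) :
    omega' * reflRatio lam' mu' Q' (pt σ t) * LSeries c (pt σ t) =
      omega * reflRatio lam mu Q (pt σ t) * conj (LSeries c (pt (1 - σ) t)) := by
  set f : ℝ → ℂ := fun t => omega' * reflRatio lam' mu' Q' (pt σ t) * LSeries c (pt σ t) -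
    omega * reflRatio lam mu Q (pt σ t) * conj (LSeries c (pt (1 - σ) t))
  have hprod : ∀ t, f t * conj (E' (pt (1 - σ) t)) = 0 := fun t => by
    have h1 := eq_quotient h h' (by linarith) hc hL (s := pt σ t) (by rwa [pt_re])
    have h2 := congrArg conj
      (eq_quotient h h' (by linarith) hc hL (s := pt (1 - σ) t) (by rwa [pt_re]))
    have h3 := reflect h (s := pt σ t) (by rw [pt_re]; linarith)
    have h4 := reflect h' (s := pt σ t) (by rw [pt_re]; linarith)
    rw [one_sub_conj_pt] at h3 h4
    have hw : conj (pt (1 - σ) t - 1) = -pt σ t := by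
      apply Complex.ext <;> simp [FA.DegreeGap.pt]
    simp only [map_mul, map_pow, hw] at h2
    have hs0 : pt σ t ≠ 0 := fun e => by
      have := congrArg Complex.re e
      rw [pt_re, Complex.zero_re] at this
      linarith
    have hs1 : pt σ t - 1 ≠ 0 := fun e => by
      have := congrArg Complex.re (sub_eq_zero.1 e)
      rw [pt_re, one_re] at this
      linarith
    refine (mul_eq_zero.1 (show ((pt σ t - 1) ^ (m + m') * (-pt σ t) ^ m) *
      (f t * conj (E' (pt (1 - σ) t))) = 0 from ?_)).resolve_left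
        (mul_ne_zero (pow_ne_zero _ hs1) (pow_ne_zero _ (neg_ne_zero.2 hs0)))
    simp only [f]
    linear_combination (-((pt σ t - 1) ^ m * (-pt σ t) ^ m * LSeries c (pt σ t))) * h4 +
      (-((-pt σ t) ^ (m + m'))) * h1 + ((-pt σ t) ^ m') * (pt σ t - 1) ^ m' * h3 +
      (pt σ t - 1) ^ (m + m') * omega * reflRatio lam mu Q (pt σ t) * h2
  have hline : ∀ u : ℝ, θ < u → Continuous fun x : ℝ => LSeries c (pt u x) := fun u hu =>
    FA.SelbergClass.continuous_line (hc (u : ℂ) (by simpa using hu))
  have hR : ∀ {k : ℕ} {l : Fin k → ℝ} {μ : Fin k → ℂ} {P : ℝ}, (∀ j, 0 < l j) →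
      (∀ j, 0 ≤ (μ j).re) → 0 < P → Continuous fun x : ℝ => reflRatio l μ P (pt σ x) :=
    fun hl hμ hP => continuous_iff_continuousAt.2 fun x =>
      (differentiableAt_reflRatio hl hμ hP (by rw [pt_re]; linarith)).continuousAt.comp
        (FA.DegreeGap.continuous_pt σ).continuousAt
  have hf : Continuous f :=
    (((hR h'.lam_pos h'.mu_re h'.Q_pos).const_mul omega').mul (hline σ hσ)).sub
      (((hR h.lam_pos h.mu_re h.Q_pos).const_mul omega).mul
        (Complex.continuous_conj.comp (hline (1 - σ) hσ')))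
  by_contra hne
  have hft : f t ≠ 0 := sub_ne_zero.2 hne
  have hev : ∀ᶠ u in 𝓝 t, E' (pt (1 - σ) u) = 0 := (hf.continuousAt.eventually_ne hft).mono
    fun u hu => (map_eq_zero _).1 ((mul_eq_zero.1 (hprod u)).resolve_left hu)
  have hmap : Tendsto (pt (1 - σ)) (𝓝[≠] t) (𝓝[≠] (pt (1 - σ) t)) :=
    tendsto_nhdsWithin_iff.2 ⟨((FA.DegreeGap.continuous_pt _).tendsto t).mono_left
      nhdsWithin_le_nhds, eventually_nhdsWithin_of_forall fun u hu e => hu (by
        have := congrArg Complex.im e
        rwa [FA.DegreeGap.pt_im, FA.DegreeGap.pt_im] at this)⟩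
  have hE : E' = fun _ => 0 := AnalyticOnNhd.eq_of_frequently_eq (z₀ := pt (1 - σ) t)
    (fun z _ => h'.differentiable.analyticAt z) analyticOnNhd_const
    (hmap.frequently (hev.filter_mono nhdsWithin_le_nhds).frequently)
  refine hb (FA.SelbergStructure.eq_zero_on_interval h' (σ := 2) one_lt_two (t₀ := 0)
    (Eventually.of_forall fun u => ?_) one_ne_zero)
  have h5 := (congrFun hE (pt 2 u)).symm.trans (h'.eq_series _ (by rw [pt_re]; norm_num))
  refine (mul_eq_zero.1 h5.symm).resolve_left (pow_ne_zero _ fun e => ?_)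
  have := congrArg Complex.re (sub_eq_zero.1 e)
  rw [pt_re, one_re] at this
  norm_num at this

end FA.SelbergMultiplicity

end
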