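import Fermat.Agent.SelbergMultiplicity.Main

/-!
# Linear independence

Multiplicative functions that differ pairwise at powers of primes outside every finite set are
linearly independent.
-/

set_option autoImplicit false

noncomputable section

open Finset
open FA.SelbergStructure (HasDegree abscissa_lt_top)

namespace FA.SelbergMultiplicity

theorem coeff_eq_zero_of_relation {ι : Type*} [DecidableEq ι] (f : ι → ℕ → ℂ)
    (h1 : ∀ i, f i 1 = 1) (hmul : ∀ i (m n : ℕ), Nat.Coprime m n → f i (m * n) = f i m * f i n)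
    (hdiff : ∀ i j, i ≠ j → ∀ M : ℕ, M ≠ 0 →
      ∃ p k : ℕ, p.Prime ∧ ¬ p ∣ M ∧ f i (p ^ k) ≠ f j (p ^ k)) (s : Finset ι) :
    ∀ (c : ι → ℂ) (M : ℕ), M ≠ 0 →
      (∀ n : ℕ, n ≠ 0 → Nat.Coprime n M → ∑ i ∈ s, c i * f i n = 0) → ∀ i ∈ s, c i = 0 := by
  induction s using Finset.induction with
  | empty => simp
  | @insert a s ha ih =>
    intro c M hM hrel
    have hs : ∀ i ∈ s, c i = 0 := by
      intro i hi
      obtain ⟨p, k, hp, hpM, hne⟩ := hdiff a i (fun e => ha (e ▸ hi)) M hM
      have hzero := ih (fun j => c j * (f j (p ^ k) - f a (p ^ k))) (M * p)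
        (mul_ne_zero hM hp.ne_zero) (fun n hn hcop => ?_) i hi
      · exact (mul_eq_zero.1 hzero).resolve_right (sub_ne_zero.2 (Ne.symm hne))
      rw [Nat.coprime_mul_iff_right] at hcop
      have hcopp : Nat.Coprime (p ^ k) n := hcop.2.symm.pow_left k
      have e1 := hrel (p ^ k * n) (mul_ne_zero (pow_ne_zero k hp.ne_zero) hn)
        (((hp.coprime_iff_not_dvd.2 hpM).pow_left k).mul_left hcop.1)
      simp only [hmul _ _ _ hcopp] at e1
      have e2 := hrel n hn hcop.1
      rw [sum_insert ha] at e1 e2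
      have e3 : ∑ j ∈ s, c j * (f j (p ^ k) - f a (p ^ k)) * f j n =
          (∑ j ∈ s, c j * (f j (p ^ k) * f j n)) - f a (p ^ k) * ∑ j ∈ s, c j * f j n := by
        rw [mul_sum, ← sum_sub_distrib]
        exact sum_congr rfl fun j _ => by ring
      rw [e3]
      linear_combination e1 - f a (p ^ k) * e2
    intro i hi
    rcases Finset.mem_insert.1 hi with rfl | hi
    · have e := hrel 1 one_ne_zero (Nat.coprime_one_left M)
      rw [sum_insert ha, sum_eq_zero fun j hj => by rw [hs j hj, zero_mul], add_zero, h1,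
        mul_one] at e
      exact e
    · exact hs i hi

variable {ι : Type*} [Fintype ι] {f : ι → ℕ → ℂ} {d : ι → ℝ}

/-- **Distinct elements are linearly independent.** -/
theorem eq_zero_of_relation (h : ∀ i, HasDegree (f i) (d i))
    (hne : ∀ i j, i ≠ j → ∃ n, n ≠ 0 ∧ f i n ≠ f j n) {c : ι → ℂ}
    (hrel : ∀ n : ℕ, n ≠ 0 → ∑ i, c i * f i n = 0) : c = 0 := by
  classical
  funext i
  refine coeff_eq_zero_of_relation f (fun i => (h i).1.map_one) (fun i => (h i).1.map_mul)
    (fun i j hij M hM => ?_) univ c 1 one_ne_zero (fun n hn _ => hrel n hn) i (mem_univ i)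
  obtain ⟨n, hn, hfn⟩ := hne i j hij
  by_contra hno
  push Not at hno
  refine hfn (eq_of_eq_outside (h i) (h j) M.primeFactors (fun p hp hpM k => hno p k hp ?_) hn)
  exact fun hdvd => hpM (Nat.mem_primeFactors.2 ⟨hp, hdvd, hM⟩)

/-- As functions on `re s > 1`. -/
theorem linearIndependent_lSeries (h : ∀ i, HasDegree (f i) (d i))
    (hne : ∀ i j, i ≠ j → ∃ n, n ≠ 0 ∧ f i n ≠ f j n) :
    LinearIndependent ℂ fun i (s : {s : ℂ // 1 < s.re}) => LSeries (f i) s := by
  classical
  refine Fintype.linearIndependent_iff.2 fun g hg i => ?_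
  suffices hrel : ∀ n : ℕ, n ≠ 0 → ∑ i, g i * f i n = 0 by
    rw [eq_zero_of_relation h hne hrel, Pi.zero_apply]
  have hsum : ∀ s : ℂ, 1 < s.re → LSeriesSummable (∑ i, g i • f i) s := fun s hs =>
    LSeriesSummable.sum fun i _ => ((h i).summable hs).smul (g i)
  have hfin : LSeries.abscissaOfAbsConv (∑ i, g i • f i) < ⊤ :=
    (LSeries.abscissaOfAbsConv_le_of_forall_lt_LSeriesSummable (x := 1) fun y hy =>
      hsum y (by simpa using hy)).trans_lt (EReal.coe_lt_top 1)
  intro n hn
  have h0 := LSeries.eq_of_LSeries_eventually_eq hfin (g := 0)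
    ((LSeries.abscissaOfAbsConv_le_of_le_const ⟨0, fun n _ => by simp⟩).trans_lt
      (EReal.coe_lt_top 1)) ?_ hn
  · simpa using h0
  filter_upwards [Filter.eventually_gt_atTop 1] with x hx
  have hx' : 1 < (x : ℂ).re := by simpa using hx
  rw [LSeries_sum fun i _ => ((h i).summable hx').smul (g i), LSeries_zero]
  have := congrFun hg ⟨x, hx'⟩
  simpa [LSeries_smul] using this

end FA.SelbergMultiplicity

end
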