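import Fermat.Agent.SelbergClass.Euler
import Mathlib.Analysis.Complex.TaylorSeries

/-!
# The quotient of two local factors
-/

set_option autoImplicit false

noncomputable section

open Complex Filter Topology
open scoped Nat
open FA.SelbergClass (LocalFactors)

namespace FA.SelbergMultiplicity

variable {ρ : ℝ}

theorem differentiableOn_series {w : ℕ → ℂ}
    (h : ∀ X : ℂ, ‖X‖ < ρ → Summable fun k => w k * X ^ k) :
    DifferentiableOn ℂ (fun X => ∑' k, w k * X ^ k) (Metric.ball 0 ρ) := fun z hz => by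
  rw [mem_ball_zero_iff] at hz
  obtain ⟨r, hzr, hrρ⟩ := exists_between hz
  have hr : 0 ≤ r := (norm_nonneg z).trans hzr.le
  have hu : Summable fun k => ‖w k‖ * r ^ k := by
    have := (h (r : ℂ) (by rwa [Complex.norm_real, Real.norm_of_nonneg hr])).norm
    simpa [Real.norm_of_nonneg hr] using this
  have hd : DifferentiableOn ℂ (fun X => ∑' k, w k * X ^ k) (Metric.ball 0 r) :=
    differentiableOn_tsum_of_summable_norm hu (fun k => by fun_prop) Metric.isOpen_ball
      fun k X hX => by
        rw [mem_ball_zero_iff] at hX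
        rw [norm_mul, norm_pow]
        exact mul_le_mul_of_nonneg_left (pow_le_pow_left₀ (norm_nonneg X) hX.le k) (norm_nonneg _)
  exact (hd.differentiableAt (Metric.isOpen_ball.mem_nhds
    (mem_ball_zero_iff.2 hzr))).differentiableWithinAt

/-- A power series that is `0` on a disk has no coefficients. -/
theorem coeff_eq_zero (hρ : 0 < ρ) :
    ∀ (n : ℕ) (w : ℕ → ℂ), (∀ X : ℂ, ‖X‖ < ρ → HasSum (fun k => w k * X ^ k) 0) → w n = 0 := by
  intro n
  induction n with
  | zero =>
    intro w hw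
    refine HasSum.unique ?_ (hw 0 (by simpa using hρ))
    simpa using hasSum_single (f := fun k => w k * (0 : ℂ) ^ k) 0 fun k hk => by simp [hk]
  | succ n ih =>
    intro w hw
    have hw0 : w 0 = 0 := by
      refine HasSum.unique ?_ (hw 0 (by simpa using hρ))
      simpa using hasSum_single (f := fun k => w k * (0 : ℂ) ^ k) 0 fun k hk => by simp [hk]
    set v : ℕ → ℂ := fun k => w (k + 1)
    have hv : ∀ X : ℂ, ‖X‖ < ρ → X ≠ 0 → HasSum (fun k => v k * X ^ k) 0 := fun X hX hX0 => by
      have h1 := (hasSum_nat_add_iff' (f := fun k => w k * X ^ k) 1).2 (hw X hX)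
      simp only [Finset.range_one, Finset.sum_singleton, hw0, zero_mul, sub_zero] at h1
      have h2 := h1.mul_right X⁻¹
      rw [zero_mul] at h2
      refine h2.congr_fun fun k => ?_
      simp only [v, pow_succ]
      field_simp
    have hs : ∀ X : ℂ, ‖X‖ < ρ → Summable fun k => v k * X ^ k := fun X hX => by
      rcases eq_or_ne X 0 with rfl | hX0
      · exact summable_of_ne_finset_zero (s := {0}) fun k hk => by
          simp at hk
          simp [hk]
      · exact (hv X hX hX0).summable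
    have h0 : ∑' k, v k * (0 : ℂ) ^ k = 0 := by
      have hc := ((differentiableOn_series hs).differentiableAt
        (Metric.ball_mem_nhds 0 hρ)).continuousAt.tendsto.mono_left
          (nhdsWithin_le_nhds (s := ({0}ᶜ : Set ℂ)))
      refine tendsto_nhds_unique hc (tendsto_const_nhds.congr' ?_)
      filter_upwards [self_mem_nhdsWithin,
        nhdsWithin_le_nhds (Metric.ball_mem_nhds (0 : ℂ) hρ)] with X hX0 hX
      exact ((hv X (mem_ball_zero_iff.1 hX) hX0).tsum_eq).symm
    refine ih v fun X hX => ?_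
    rcases eq_or_ne X 0 with rfl | hX0
    · have h1 := (hs 0 hX).hasSum
      rwa [h0] at h1
    · exact hv X hX hX0

/-- The local series. -/
def locSeries (a : ℕ → ℂ) (p : ℕ) (X : ℂ) : ℂ := ∑' k, a (p ^ k) * X ^ k

/-- The Taylor coefficients of the quotient of the local series. -/
def quotCoeff (a b : ℕ → ℂ) (p k : ℕ) : ℂ :=
  (k ! : ℂ)⁻¹ * iteratedDeriv k (fun X => locSeries a p X / locSeries b p X) 0

variable {a b : ℕ → ℂ} {θ : ℝ} {p : ℕ}

theorem hasSum_locSeries (ha : LocalFactors a θ) (hp : p.Prime) {X : ℂ}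
    (hX : ‖X‖ < (p : ℝ) ^ (-θ)) :
    HasSum (fun k => a (p ^ k) * X ^ k) (locSeries a p X) ∧ locSeries a p X ≠ 0 := by
  obtain ⟨s, hs, hsum⟩ := ha p hp X hX
  rw [locSeries, hsum.tsum_eq]
  exact ⟨hsum, hs⟩

theorem rpow_pos_prime (hp : p.Prime) (x : ℝ) : 0 < (p : ℝ) ^ x :=
  Real.rpow_pos_of_pos (Nat.cast_pos.2 hp.pos) x

theorem hasSum_quotCoeff (ha : LocalFactors a θ) (hb : LocalFactors b θ) (hp : p.Prime) {X : ℂ}
    (hX : ‖X‖ < (p : ℝ) ^ (-θ)) :
    HasSum (fun k => quotCoeff a b p k * X ^ k) (locSeries a p X / locSeries b p X) := by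
  have hd : ∀ {c : ℕ → ℂ}, LocalFactors c θ →
      DifferentiableOn ℂ (locSeries c p) (Metric.ball 0 ((p : ℝ) ^ (-θ))) := fun {c} hc =>
    differentiableOn_series fun Y hY => (hasSum_locSeries hc hp hY).1.summable
  have h := Complex.hasSum_taylorSeries_on_ball ((hd ha).div (hd hb) fun Y hY =>
    (hasSum_locSeries hb hp (mem_ball_zero_iff.1 hY)).2) (mem_ball_zero_iff.2 hX)
  refine h.congr_fun fun k => ?_
  simp only [quotCoeff, sub_zero, smul_eq_mul, Pi.div_def]
  ring

theorem quotCoeff_zero (ha : a 1 = 1) (hb : b 1 = 1) : quotCoeff a b p 0 = 1 := by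
  have h : ∀ {c : ℕ → ℂ}, c 1 = 1 → locSeries c p 0 = 1 := fun {c} hc => by
    rw [locSeries, tsum_eq_single 0 fun k hk => by simp [hk]]
    simp [hc]
  simp [quotCoeff, h ha, h hb]

/-- The quotient times the second factor is the first. -/
theorem sum_quotCoeff (ha : LocalFactors a θ) (hb : LocalFactors b θ) (hp : p.Prime) (n : ℕ) :
    ∑ i ∈ Finset.range (n + 1), quotCoeff a b p i * b (p ^ (n - i)) = a (p ^ n) := by
  refine sub_eq_zero.1 (coeff_eq_zero (rpow_pos_prime hp (-θ)) n (fun k =>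
    (∑ i ∈ Finset.range (k + 1), quotCoeff a b p i * b (p ^ (k - i))) - a (p ^ k)) fun X hX => ?_)
  obtain ⟨hA, -⟩ := hasSum_locSeries ha hp hX
  obtain ⟨hB, hB0⟩ := hasSum_locSeries hb hp hX
  have hU := hasSum_quotCoeff ha hb hp hX
  have h := hasSum_sum_range_mul_of_summable_norm hU.summable.norm hB.summable.norm
  rw [hU.tsum_eq, hB.tsum_eq, div_mul_cancel₀ _ hB0] at h
  have h2 := h.sub hA
  rw [sub_self] at h2
  refine h2.congr_fun fun k => ?_
  rw [sub_mul, Finset.sum_mul]
  congr 1
  refine Finset.sum_congr rfl fun i hi => ?_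
  rw [show X ^ k = X ^ i * X ^ (k - i) by
    rw [← pow_add, Nat.add_sub_cancel' (Nat.lt_succ_iff.1 (Finset.mem_range.1 hi))]]
  ring

end FA.SelbergMultiplicity

end
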