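import Fermat.Agent.SelbergClass.Euler
import Mathlib.Analysis.SpecialFunctions.Trigonometric.Bounds

/-!
# Means and the phase `t ^ (i τ)`

If two bounded functions with means differ by the factor `K t ^ (i τ)`, `τ ≠ 0`, up to `o 1`, then
the mean of the first is `0`: compare short intervals at `T` and at `T exp (π / τ)`.
-/

set_option autoImplicit false

noncomputable section

open Complex MeasureTheory Filter Topology
open scoped Real

namespace FA.SelbergMultiplicity

/-- The phase. -/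
def phase (τ t : ℝ) : ℂ := cexp (((τ * Real.log t : ℝ) : ℂ) * I)

theorem norm_phase (τ t : ℝ) : ‖phase τ t‖ = 1 := Complex.norm_exp_ofReal_mul_I _

theorem norm_phase_sub_le (τ : ℝ) {T t ε : ℝ} (hT : 0 < T) (h1 : T ≤ t) (h2 : t ≤ (1 + ε) * T) :
    ‖phase τ t - phase τ T‖ ≤ |τ| * ε := by
  have ht : 0 < t := hT.trans_le h1
  rw [show phase τ t - phase τ T =
      phase τ T * (cexp (I * ((τ * (Real.log t - Real.log T) : ℝ) : ℂ)) - 1) by
    rw [mul_sub, mul_one, phase, phase, ← Complex.exp_add]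
    congr 2
    push_cast
    ring, norm_mul, norm_phase, one_mul]
  refine Real.norm_exp_I_mul_ofReal_sub_one_le.trans ?_
  rw [Real.norm_eq_abs, abs_mul, ← Real.log_div ht.ne' hT.ne']
  refine mul_le_mul_of_nonneg_left ?_ (abs_nonneg τ)
  rw [abs_of_nonneg (Real.log_nonneg (by rwa [le_div_iff₀ hT, one_mul]))]
  refine (Real.log_le_sub_one_of_pos (div_pos ht hT)).trans ?_
  rw [sub_le_iff_le_add, div_le_iff₀ hT]
  linarith

/-- The mean over `[T, (1 + ε) T]`, times `ε`. -/
def block (g : ℝ → ℂ) (ε T : ℝ) : ℂ := (T : ℂ)⁻¹ * ∫ t in T..(1 + ε) * T, g t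

theorem tendsto_block {g : ℝ → ℂ} (hg : Continuous g) {A : ℂ}
    (hA : Tendsto (fun T : ℝ => (T : ℂ)⁻¹ * ∫ t in (0 : ℝ)..T, g t) atTop (𝓝 A)) {ε : ℝ}
    (hε : 0 < ε) : Tendsto (block g ε) atTop (𝓝 ((ε : ℂ) * A)) := by
  have h1 := ((hA.comp (tendsto_id.const_mul_atTop (show 0 < 1 + ε by linarith))).const_mul
    ((1 + ε : ℝ) : ℂ)).sub hA
  rw [show ((1 + ε : ℝ) : ℂ) * A - A = (ε : ℂ) * A by push_cast; ring] at h1
  refine h1.congr' ?_
  filter_upwards [eventually_gt_atTop 0] with T hT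
  simp only [Function.comp_apply, id, block]
  rw [← intervalIntegral.integral_interval_sub_left (hg.intervalIntegrable 0 _)
    (hg.intervalIntegrable 0 T), mul_sub, ofReal_mul, mul_inv, ← mul_assoc (((1 + ε : ℝ) : ℂ)),
    ← mul_assoc (((1 + ε : ℝ) : ℂ)),
    mul_inv_cancel₀ (ofReal_ne_zero.2 (show (1 + ε : ℝ) ≠ 0 by linarith)), one_mul]

theorem norm_block_sub_le {f g : ℝ → ℂ} (hf : Continuous f) (hg : Continuous g) {B : ℝ}
    (hB : ∀ t, ‖f t‖ ≤ B) {K : ℂ} {τ η : ℝ} {ε T : ℝ} (hT : 0 < T) (hε : 0 < ε)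
    (h : ∀ t, T ≤ t → ‖g t - K * phase τ t * f t‖ ≤ η) :
    ‖block g ε T - K * phase τ T * block f ε T‖ ≤ ε * (η + ‖K‖ * (|τ| * ε) * B) := by
  have hle : T ≤ (1 + ε) * T := by nlinarith
  rw [show block g ε T - K * phase τ T * block f ε T =
      (T : ℂ)⁻¹ * ∫ t in T..(1 + ε) * T, (g t - K * phase τ T * f t) by
    rw [intervalIntegral.integral_sub (hg.intervalIntegrable _ _)
      ((hf.intervalIntegrable _ _).const_mul _), intervalIntegral.integral_const_mul, block, block]
    ring, norm_mul, norm_inv, Complex.norm_real, Real.norm_of_nonneg hT.le]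
  refine (mul_le_mul_of_nonneg_left (intervalIntegral.norm_integral_le_of_norm_le_const
    (C := η + ‖K‖ * (|τ| * ε) * B) fun t ht => ?_) (inv_nonneg.2 hT.le)).trans_eq ?_
  · rw [Set.uIoc_of_le hle] at ht
    rw [show g t - K * phase τ T * f t =
      (g t - K * phase τ t * f t) + K * (phase τ t - phase τ T) * f t by ring]
    refine (norm_add_le _ _).trans (add_le_add (h t ht.1.le) ?_)
    rw [norm_mul, norm_mul]
    exact mul_le_mul (mul_le_mul_of_nonneg_left (norm_phase_sub_le τ hT ht.1.le ht.2)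
      (norm_nonneg K)) (hB t) (norm_nonneg _) (by positivity)
  · rw [show |(1 + ε) * T - T| = ε * T by rw [abs_of_nonneg (by linarith)]; ring]
    field_simp

theorem mean_eq_zero_of_phase {f g : ℝ → ℂ} (hf : Continuous f) (hg : Continuous g) {B : ℝ}
    (hB : ∀ t, ‖f t‖ ≤ B) {U A K : ℂ} {τ : ℝ} (hτ : τ ≠ 0)
    (hA : Tendsto (fun T : ℝ => (T : ℂ)⁻¹ * ∫ t in (0 : ℝ)..T, g t) atTop (𝓝 A))
    (hU : Tendsto (fun T : ℝ => (T : ℂ)⁻¹ * ∫ t in (0 : ℝ)..T, f t) atTop (𝓝 U))
    (h : Tendsto (fun t => g t - K * phase τ t * f t) atTop (𝓝 0)) : A = 0 := by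
  have hB0 : 0 ≤ B := (norm_nonneg _).trans (hB 0)
  set C := 1 + ‖K‖ * |τ| * B
  suffices h1 : ∀ ε : ℝ, 0 < ε → ‖A‖ ≤ C * ε by
    refine norm_le_zero_iff.1 (le_of_forall_pos_le_add fun δ hδ => ?_)
    have hC : 0 < C := by positivity
    calc ‖A‖ ≤ C * (δ / C) := h1 _ (div_pos hδ hC)
      _ = 0 + δ := by field_simp; ring
  intro ε hε
  set c := Real.exp (π / τ)
  have hc : 0 < c := Real.exp_pos _
  have hcT : Tendsto (fun T => c * T) atTop atTop := tendsto_id.const_mul_atTop hc
  have hgA := tendsto_block hg hA hε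
  have hfU := tendsto_block hf hU hε
  have hlim : Tendsto (fun T => ‖block g ε T + block g ε (c * T) -
      K * phase τ T * (block f ε T - block f ε (c * T))‖) atTop (𝓝 ‖(ε : ℂ) * A + ε * A‖) := by
    have h2 : Tendsto (fun T => K * phase τ T * (block f ε T - block f ε (c * T))) atTop
        (𝓝 0) := by
      have h3 := (hfU.sub (hfU.comp hcT)).norm
      rw [sub_self, norm_zero] at h3
      refine squeeze_zero_norm (a := fun T => ‖K‖ * ‖block f ε T - block f ε (c * T)‖)
        (fun T => ?_) (by simpa using h3.const_mul ‖K‖)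
      rw [norm_mul, norm_mul, norm_phase, mul_one]
    simpa using ((hgA.add (hgA.comp hcT)).sub h2).norm
  have hb : ‖(ε : ℂ) * A + ε * A‖ ≤ 2 * (ε * (C * ε)) := by
    refine le_of_tendsto hlim ?_
    obtain ⟨T₀, hT₀⟩ := eventually_atTop.1 (h.norm.eventually
      (Iic_mem_nhds (show ‖(0 : ℂ)‖ < ε by simpa using hε)))
    filter_upwards [eventually_gt_atTop 0, eventually_ge_atTop T₀,
      hcT.eventually_ge_atTop T₀] with T hT hT1 hT2
    have hflip : phase τ (c * T) = -phase τ T := by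
      rw [phase, phase, Real.log_mul hc.ne' hT.ne', Real.log_exp, neg_eq_neg_one_mul,
        ← Complex.exp_pi_mul_I, ← Complex.exp_add]
      congr 1
      have : (τ : ℂ) ≠ 0 := ofReal_ne_zero.2 hτ
      push_cast
      field_simp
    have e1 := norm_block_sub_le hf hg hB hT hε (K := K) (τ := τ) (η := ε)
      fun t ht => hT₀ t (hT1.trans ht)
    have e2 := norm_block_sub_le hf hg hB (mul_pos hc hT) hε (K := K) (τ := τ) (η := ε)
      fun t ht => hT₀ t (hT2.trans ht)
    rw [show block g ε T + block g ε (c * T) - K * phase τ T * (block f ε T - block f ε (c * T)) =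
      (block g ε T - K * phase τ T * block f ε T) +
        (block g ε (c * T) - K * phase τ (c * T) * block f ε (c * T)) by rw [hflip]; ring]
    refine (norm_add_le _ _).trans ((add_le_add e1 e2).trans (le_of_eq ?_))
    simp only [C]
    ring
  rw [show (ε : ℂ) * A + ε * A = ((2 * ε : ℝ) : ℂ) * A by push_cast; ring, norm_mul,
    Complex.norm_real, Real.norm_of_nonneg (by linarith)] at hb
  exact le_of_mul_le_mul_left (show 2 * ε * ‖A‖ ≤ 2 * ε * (C * ε) by linarith) (by linarith)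

end FA.SelbergMultiplicity

end
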