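import Fermat.Agent.SelbergMultiplicity.Quotient
import Fermat.Agent.SelbergMultiplicity.Phase
import Fermat.Agent.SelbergMultiplicity.Reflection
import Fermat.Agent.SelbergStructure.Class

/-!
# Strong multiplicity one

Two elements that agree outside finitely many primes are equal.
-/

set_option autoImplicit false

noncomputable section

open Complex Filter Topology
open scoped Real ComplexConjugate LSeries.notation
open FA.DegreeGap (pt pt_re tendsto_mean_line tendsto_bohr_mean)
open FA.DegreeOne (reflRatio shiftT)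
open FA.SelbergClass (LocalFactors exists_top_summable eq_one_of_reflected continuous_line
  norm_lSeries_line_le conj_lSeries_mul coe_toArithmeticFunction)
open FA.SelbergStructure (HasDegree tendsto_reflRatio normExp rateD)

namespace FA.SelbergMultiplicity

theorem eq_zero_of_bounded_log {a C : ℝ} (h : ∀ᶠ t : ℝ in atTop, |a * Real.log t| ≤ C) :
    a = 0 := by
  by_contra ha
  obtain ⟨t, h1, h2⟩ := (h.and (Real.tendsto_log_atTop.eventually_gt_atTop (|C| / |a|))).exists
  rw [div_lt_iff₀ (abs_pos.2 ha)] at h2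
  rw [abs_mul] at h1
  nlinarith [le_abs_self C, le_abs_self (Real.log t), abs_nonneg a]

theorem exists_line_bound {u : ℕ → ℂ} {σ : ℝ} (hu : LSeriesSummable u (σ : ℂ)) :
    ∃ B : ℝ, 1 ≤ B ∧ ∀ t, ‖LSeries u (pt σ t)‖ ≤ B :=
  ⟨_, le_max_right _ _, fun t => (norm_lSeries_line_le hu t).trans (le_max_left _ 1)⟩

/-- Two reflection ratios tied by a quotient series: the constants are those of `exists_top`. -/
theorem exists_pairing {R R' W W' : ℝ → ℂ} {X X' : ℝ → ℂ} {B : ℝ} (hB : 1 ≤ B)
    (hR : ∀ t, ‖R t‖ ≤ B) (hR' : ∀ t, ‖R' t‖ ≤ B) (hW : ∀ t, ‖W t‖ ≤ B) (hW' : ∀ t, ‖W' t‖ ≤ B)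
    (hinv : ∀ t, R t * R' t = 1) (hinv' : ∀ t, W t * W' t = 1) {d d' κ κ' τ τ' σ : ℝ}
    (hσ : σ ≠ 1 / 2) {K K' : ℂ} (hK : K ≠ 0) (hK' : K' ≠ 0)
    (hX : Tendsto (fun t => X t * cexp (normExp d κ τ σ t)) atTop (𝓝 K))
    (hX' : Tendsto (fun t => X' t * cexp (normExp d' κ' τ' σ t)) atTop (𝓝 K'))
    (hrel : ∀ t, X' t * R t = X t * conj (W t)) :
    d = d' ∧ Tendsto (fun t => K' * R t - K * phase (τ - τ') t *
      (cexp ((-(κ - κ') : ℝ) * I * t) * conj (W t))) atTop (𝓝 0) := by
  set Na := normExp d κ τ σ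
  set Nb := normExp d' κ' τ' σ
  have hkey : ∀ t, X' t * cexp (Nb t) * R t =
      X t * cexp (Na t) * (cexp (Nb t - Na t) * conj (W t)) := fun t => by
    rw [Complex.exp_sub]
    field_simp [Complex.exp_ne_zero]
    linear_combination hrel t
  have hre : ∀ t, (Nb t - Na t).re = (d - d') * (1 / 2 - σ) * Real.log t := fun t => by
    simp [Na, Nb, normExp]; ring
  have hd : d = d' := by
    have hnR : ∀ t, B⁻¹ ≤ ‖R t‖ ∧ B⁻¹ ≤ ‖W t‖ := fun t => by
      constructor <;> rw [inv_le_iff_one_le_mul₀ (by linarith)]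
      · calc (1 : ℝ) = ‖R t‖ * ‖R' t‖ := by rw [← norm_mul, hinv, norm_one]
          _ ≤ ‖R t‖ * B := mul_le_mul_of_nonneg_left (hR' t) (norm_nonneg _)
      · calc (1 : ℝ) = ‖W t‖ * ‖W' t‖ := by rw [← norm_mul, hinv', norm_one]
          _ ≤ ‖W t‖ * B := mul_le_mul_of_nonneg_left (hW' t) (norm_nonneg _)
    have hKp : 0 < ‖K‖ := norm_pos_iff.2 hK
    have hKp' : 0 < ‖K'‖ := norm_pos_iff.2 hK'
    have h1 := ((Real.continuousAt_log hKp.ne').tendsto.comp hX.norm)
    have h2 := ((Real.continuousAt_log hKp'.ne').tendsto.comp hX'.norm)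
    have h3 := (h2.sub h1).abs.eventually (Iic_mem_nhds (lt_add_one _))
    have hzero := eq_zero_of_bounded_log (a := (d - d') * (1 / 2 - σ))
      (C := |Real.log ‖K'‖ - Real.log ‖K‖| + 1 + 2 * Real.log B) ?_
    · rcases mul_eq_zero.1 hzero with h4 | h4
      · linarith
      · exact absurd (by linarith) hσ
    filter_upwards [h3, hX.eventually_ne hK, hX'.eventually_ne hK'] with t ht hne hne'
    have e := congrArg norm (hkey t)
    rw [norm_mul (X' t * _), norm_mul (X t * _), norm_mul (cexp _), Complex.norm_exp (Nb t - Na t),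
      Complex.norm_conj, hre] at e
    obtain ⟨hR0, hW0⟩ := hnR t
    have hBi : 0 < B⁻¹ := inv_pos.2 (by linarith)
    have e2 := congrArg Real.log e
    rw [Real.log_mul (norm_ne_zero_iff.2 hne') (by linarith), Real.log_mul (norm_ne_zero_iff.2 hne)
      (mul_ne_zero (Real.exp_ne_zero _) (by linarith)), Real.log_mul (Real.exp_ne_zero _)
      (by linarith), Real.log_exp] at e2
    have l1 := Real.log_le_log (lt_of_lt_of_le hBi hR0) (hR t)
    have l2 := Real.log_le_log hBi hR0
    have l3 := Real.log_le_log (lt_of_lt_of_le hBi hW0) (hW t)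
    have l4 := Real.log_le_log hBi hW0
    rw [Real.log_inv] at l2 l4
    simp only [Function.comp_apply] at ht
    rw [abs_le] at ht ⊢
    constructor <;> linarith [ht.1, ht.2]
  refine ⟨hd, ?_⟩
  have hexp : ∀ t, cexp (Nb t - Na t) = phase (τ - τ') t * cexp ((-(κ - κ') : ℝ) * I * t) :=
    fun t => by
      rw [phase, ← Complex.exp_add]
      congr 1
      simp only [Na, Nb, normExp, hd]
      push_cast
      ring
  have h1 := ((hX'.const_sub K').norm.mul_const B).add ((hX.sub_const K).norm.mul_const B)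
  simp only [sub_self, norm_zero, zero_mul, add_zero] at h1
  refine squeeze_zero_norm (fun t => ?_) h1
  set F := cexp ((-(κ - κ') : ℝ) * I * t) * conj (W t)
  have hF : ‖F‖ ≤ B := by
    simp only [F]
    rw [norm_mul, show ((-(κ - κ') : ℝ) : ℂ) * I * t = ((-(κ - κ') * t : ℝ) : ℂ) * I by
      push_cast; ring, Complex.norm_exp_ofReal_mul_I, one_mul, Complex.norm_conj]
    exact hW t
  have h2 := hkey t
  rw [hexp, mul_assoc (phase _ _)] at h2
  rw [show K' * R t - K * phase (τ - τ') t * F = (K' - X' t * cexp (Nb t)) * R t +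
    (X t * cexp (Na t) - K) * (phase (τ - τ') t * F) by linear_combination h2]
  refine (norm_add_le _ _).trans (add_le_add ?_ ?_)
  · rw [norm_mul]
    exact mul_le_mul_of_nonneg_left (hR t) (norm_nonneg _)
  · rw [norm_mul, norm_mul, norm_phase, one_mul]
    exact mul_le_mul_of_nonneg_left hF (norm_nonneg _)

/-- **Strong multiplicity one.** -/
theorem eq_of_eq_outside {a b : ℕ → ℂ} {d e : ℝ} (ha : HasDegree a d) (hb : HasDegree b e)
    (S : Finset ℕ) (hS : ∀ p : ℕ, p.Prime → p ∉ S → ∀ k, a (p ^ k) = b (p ^ k))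
    {n : ℕ} (hn : n ≠ 0) : a n = b n := by
  obtain ⟨hea, m, E, r, lam, mu, Q, omega, hfa, -⟩ := ha
  obtain ⟨heb, m', E', r', lam', mu', Q', omega', hfb, -⟩ := hb
  obtain ⟨θa, hθa, hla⟩ := hea.local_factors
  obtain ⟨θb, hθb, hlb⟩ := heb.local_factors
  set θ := max (max θa θb) 0
  have hθ : θ < 1 / 2 := max_lt (max_lt hθa hθb) (by norm_num)
  have hθ0 : 0 ≤ θ := le_max_right _ _
  have hla' : LocalFactors a θ := hla.mono ((le_max_left _ _).trans (le_max_left _ _))
  have hlb' : LocalFactors b θ := hlb.mono ((le_max_right _ _).trans (le_max_left _ _))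
  have ha1 := hea.map_one
  have hb1 := heb.map_one
  set c : ArithmeticFunction ℂ := quotSeries a b S
  set c' : ArithmeticFunction ℂ := quotSeries b a S
  have hcs : ∀ s : ℂ, θ < s.re → LSeriesSummable c s := fun s hs =>
    (hasSum_quotSeries hla' hlb' ha1 hb1 hs).1
  have hcs' : ∀ s : ℂ, θ < s.re → LSeriesSummable c' s := fun s hs =>
    (hasSum_quotSeries hlb' hla' hb1 ha1 hs).1
  have hmul : c * toArithmeticFunction b = toArithmeticFunction a :=
    quotSeries_mul hla' hlb' ha1 hb1 hea.map_mul heb.map_mul hS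
  have hL : ∀ s : ℂ, 1 < s.re → LSeries a s = LSeries c s * LSeries b s := fun s hs => by
    rw [← LSeries_convolution' (hcs s (by linarith)) (hfb.summable s hs)]
    refine LSeries_congr (fun {k} hk => ?_) s
    show a k = (toArithmeticFunction ⇑c * toArithmeticFunction b) k
    rw [ArithmeticFunction.toArithmeticFunction_eq_self, hmul, coe_toArithmeticFunction hk]
  set σ := (θ + 1 / 2) / 2 with hσdef
  have hσ : θ < σ := by simp only [σ]; linarith
  have hσ' : θ < 1 - σ := by simp only [σ]; linarith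
  have hσh : σ ≠ 1 / 2 := fun h => by simp only [σ] at h; linarith
  have hcσ : LSeriesSummable c (σ : ℂ) := hcs _ (by simpa using hσ)
  have hcσ' : LSeriesSummable c ((1 - σ : ℝ) : ℂ) := hcs _ (by simpa using hσ')
  obtain ⟨B₁, hB₁, h₁⟩ := exists_line_bound hcσ
  obtain ⟨B₂, hB₂, h₂⟩ := exists_line_bound (hcs' (σ : ℂ) (by simpa using hσ))
  obtain ⟨B₃, hB₃, h₃⟩ := exists_line_bound hcσ'
  obtain ⟨B₄, hB₄, h₄⟩ := exists_line_bound (hcs' ((1 - σ : ℝ) : ℂ) (by simpa using hσ'))
  obtain ⟨K, hK, hlim⟩ := tendsto_reflRatio (mu := mu) hfa.lam_pos hfa.Q_pos σ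
  obtain ⟨K', hK', hlim'⟩ := tendsto_reflRatio (mu := mu') hfb.lam_pos hfb.Q_pos σ
  have hω : omega ≠ 0 := norm_ne_zero_iff.1 (by rw [hfa.norm_omega]; exact one_ne_zero)
  have hω' : omega' ≠ 0 := norm_ne_zero_iff.1 (by rw [hfb.norm_omega]; exact one_ne_zero)
  set B := B₁ + B₂ + B₃ + B₄
  obtain ⟨-, hpair⟩ := exists_pairing (R := fun t => LSeries c (pt σ t))
    (R' := fun t => LSeries c' (pt σ t)) (W := fun t => LSeries c (pt (1 - σ) t))
    (W' := fun t => LSeries c' (pt (1 - σ) t))
    (X := fun t => omega * reflRatio lam mu Q (pt σ t))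
    (X' := fun t => omega' * reflRatio lam' mu' Q' (pt σ t)) (B := B) (by linarith)
    (fun t => (h₁ t).trans (by linarith)) (fun t => (h₂ t).trans (by linarith))
    (fun t => (h₃ t).trans (by linarith)) (fun t => (h₄ t).trans (by linarith))
    (fun t => quotSeries_inverse hla' hlb' ha1 hb1 (by rwa [pt_re]))
    (fun t => quotSeries_inverse hla' hlb' ha1 hb1 (by rwa [pt_re]))
    hσh (mul_ne_zero hω hK) (mul_ne_zero hω' hK')
    ((hlim.const_mul omega).congr fun t => by ring)
    ((hlim'.const_mul omega').congr fun t => by ring)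
    (fun t => quotient_reflection hfa hfb (by rw [hb1]; exact one_ne_zero) hθ0 hcs hL hσ hσ' t)
  set ν := rateD lam Q - rateD lam' Q'
  set τ := shiftT mu - shiftT mu'
  have hc1 : c 1 = 1 := isMultiplicative_quotSeries.map_one
  have hc₁ : omega' * K' ≠ 0 := mul_ne_zero hω' hK'
  have hτ : τ = 0 := by
    by_contra hτ
    have hg : Tendsto (fun T : ℝ => (T : ℂ)⁻¹ * ∫ t in (0 : ℝ)..T,
        omega' * K' * LSeries c (pt σ t)) atTop (𝓝 (omega' * K')) := by
      have h0 := (tendsto_mean_line hcσ one_ne_zero).const_mul (omega' * K')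
      simp only [LSeries.term_of_ne_zero one_ne_zero, hc1, Nat.cast_one, one_cpow, div_one,
        mul_one] at h0
      refine h0.congr fun T => ?_
      simp only [Real.log_one, ofReal_zero, zero_mul, Complex.exp_zero, mul_one,
        intervalIntegral.integral_const_mul]
      ring
    have hU := tendsto_bohr_mean (c := fun j => conj (LSeries.term c ((1 - σ : ℝ) : ℂ) j))
      (by simpa using hcσ'.norm) fun j => -ν + Real.log j
    simp only [← conj_lSeries_mul] at hU
    refine hc₁ (mean_eq_zero_of_phase (τ := τ) (B := B₃) (K := omega * K) ?_ ?_ (fun t => ?_) hτ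
      hg hU
      (hpair.congr fun t => by ring))
    · exact (Complex.continuous_conj.comp (continuous_line hcσ')).mul (by fun_prop)
    · exact continuous_const.mul (continuous_line hcσ)
    · rw [norm_mul, Complex.norm_conj, show ((-ν : ℝ) : ℂ) * I * t = ((-ν * t : ℝ) : ℂ) * I by
        push_cast; ring, Complex.norm_exp_ofReal_mul_I, mul_one]
      exact h₃ t
  obtain ⟨M, hM, -, hdvd, hsq⟩ := exists_top_summable (h := c) hc1 (ν := ν) (c₁ := omega' * K')
    (c₂ := omega * K) hcσ hcσ' (mul_ne_zero hω hK) (hpair.congr fun t => by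
      rw [hτ]
      simp only [phase, zero_mul, ofReal_zero, Complex.exp_zero, ν]
      ring)
  have hM1 : M = 1 := eq_one_of_reflected hc1
    (fun k l hkl => isMultiplicative_quotSeries.map_mul_of_coprime hkl) hθ
    (fun p hp X hX => quotSeries_local_ne_zero hla' hlb' ha1 hb1 hp hX) hM hdvd hsq
  have hcone : c = 1 := by
    ext k
    rcases eq_or_ne k 1 with rfl | hk1
    · rw [ArithmeticFunction.one_one, hc1]
    rw [ArithmeticFunction.one_apply_ne hk1]
    by_contra hne
    rcases eq_or_ne k 0 with rfl | hk0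
    · exact hne ArithmeticFunction.map_zero
    exact hk1 (Nat.dvd_one.1 (hM1 ▸ hdvd k hk0 hne))
  rw [hcone, one_mul] at hmul
  rw [← coe_toArithmeticFunction (f := a) hn, ← hmul, coe_toArithmeticFunction hn]

end FA.SelbergMultiplicity

end
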