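import Fermat.Agent.SelbergMultiplicity.Local
import Fermat.Agent.SelbergClass.Character
import Mathlib.NumberTheory.EulerProduct.Basic

/-!
# The quotient of two series that differ at finitely many primes
-/

set_option autoImplicit false

noncomputable section

open Complex ArithmeticFunction
open scoped LSeries.notation
open FA.SelbergClass (LocalFactors coe_toArithmeticFunction)

namespace FA.SelbergMultiplicity

variable {a b : ℕ → ℂ} {θ : ℝ} {S : Finset ℕ}

/-- The weight at `p ^ k`. -/
def locWeight (a b : ℕ → ℂ) (S : Finset ℕ) (p k : ℕ) : ℂ :=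
  if p ∈ S then quotCoeff a b p k else if k = 0 then 1 else 0

/-- The quotient series. -/
def quotSeries (a b : ℕ → ℂ) (S : Finset ℕ) : ArithmeticFunction ℂ :=
  toArithmeticFunction fun n => n.factorization.prod (locWeight a b S)

theorem quotSeries_apply {n : ℕ} (hn : n ≠ 0) :
    quotSeries a b S n = n.factorization.prod (locWeight a b S) :=
  coe_toArithmeticFunction hn

theorem isMultiplicative_quotSeries : (quotSeries a b S).IsMultiplicative := by
  refine IsMultiplicative.iff_ne_zero.2 ⟨?_, fun {m n} hm hn hmn => ?_⟩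
  · rw [quotSeries_apply one_ne_zero, Nat.factorization_one, Finsupp.prod_zero_index]
  · rw [quotSeries_apply (mul_ne_zero hm hn), quotSeries_apply hm, quotSeries_apply hn,
      Nat.factorization_mul_of_coprime hmn, Finsupp.prod_add_index_of_disjoint]
    simpa [Nat.support_factorization] using hmn.disjoint_primeFactors

theorem quotSeries_prime_pow (ha : a 1 = 1) (hb : b 1 = 1) {p : ℕ} (hp : p.Prime) (k : ℕ) :
    quotSeries a b S (p ^ k) = locWeight a b S p k := by
  rw [quotSeries_apply (pow_ne_zero k hp.ne_zero), hp.factorization_pow, Finsupp.prod_single_index]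
  simp [locWeight, quotCoeff_zero ha hb]

theorem quotSeries_eq_zero {n : ℕ} (hn : n ∉ Nat.factoredNumbers S) : quotSeries a b S n = 0 := by
  rcases eq_or_ne n 0 with rfl | hn0
  · exact ArithmeticFunction.map_zero
  obtain ⟨p, hp, hpS⟩ : ∃ p ∈ n.primeFactorsList, p ∉ S := by
    by_contra hno
    push Not at hno
    exact hn ⟨hn0, hno⟩
  rw [Nat.mem_primeFactorsList hn0] at hp
  rw [quotSeries_apply hn0, Finsupp.prod]
  refine Finset.prod_eq_zero (i := p) ?_ ?_
  · rw [Nat.support_factorization]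
    exact Nat.mem_primeFactors.2 ⟨hp.1, hp.2, hn0⟩
  · rw [locWeight, if_neg hpS, if_neg (hp.1.factorization_pos_of_dvd hn0 hp.2).ne']

/-- **The quotient times the second series is the first.** -/
theorem quotSeries_mul (ha : LocalFactors a θ) (hb : LocalFactors b θ) (ha1 : a 1 = 1)
    (hb1 : b 1 = 1) (hma : ∀ m n : ℕ, Nat.Coprime m n → a (m * n) = a m * a n)
    (hmb : ∀ m n : ℕ, Nat.Coprime m n → b (m * n) = b m * b n)
    (hS : ∀ p : ℕ, p.Prime → p ∉ S → ∀ k, a (p ^ k) = b (p ^ k)) :
    quotSeries a b S * toArithmeticFunction b = toArithmeticFunction a := by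
  have hmult : ∀ {c : ℕ → ℂ}, c 1 = 1 → (∀ m n : ℕ, Nat.Coprime m n → c (m * n) = c m * c n) →
      (toArithmeticFunction c).IsMultiplicative := fun {c} h1 h2 =>
    IsMultiplicative.iff_ne_zero.2 ⟨by rw [coe_toArithmeticFunction one_ne_zero, h1],
      fun {m n} hm hn hmn => by
        rw [coe_toArithmeticFunction (mul_ne_zero hm hn), coe_toArithmeticFunction hm,
          coe_toArithmeticFunction hn, h2 m n hmn]⟩
  refine (IsMultiplicative.eq_iff_eq_on_prime_powers _
    (isMultiplicative_quotSeries.mul (hmult hb1 hmb)) _ (hmult ha1 hma)).2 fun p k hp => ?_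
  rw [coe_toArithmeticFunction (pow_ne_zero k hp.ne_zero), ArithmeticFunction.mul_apply,
    Nat.sum_divisorsAntidiagonal (fun x y => quotSeries a b S x * toArithmeticFunction b y),
    Nat.sum_divisors_prime_pow hp]
  rw [Finset.sum_congr rfl fun i hi => show
    quotSeries a b S (p ^ i) * toArithmeticFunction b (p ^ k / p ^ i) =
      locWeight a b S p i * b (p ^ (k - i)) by
    rw [Nat.pow_div (Nat.lt_succ_iff.1 (Finset.mem_range.1 hi)) hp.pos,
      coe_toArithmeticFunction (pow_ne_zero _ hp.ne_zero), quotSeries_prime_pow ha1 hb1 hp]]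
  by_cases hpS : p ∈ S
  · simp only [locWeight, if_pos hpS]
    exact sum_quotCoeff ha hb hp k
  · simp only [locWeight, if_neg hpS]
    rw [Finset.sum_eq_single 0 (fun i _ hi => by rw [if_neg hi, zero_mul]) (fun h => by simp at h)]
    simp [hS p hp hpS k]

theorem norm_prime_cpow_lt {p : ℕ} (hp : p.Prime) {s : ℂ} (hs : θ < s.re) :
    ‖(p : ℂ) ^ (-s)‖ < (p : ℝ) ^ (-θ) := by
  rw [norm_natCast_cpow_of_pos hp.pos, Complex.neg_re]
  exact Real.rpow_lt_rpow_of_exponent_lt (Nat.one_lt_cast.2 hp.one_lt) (by linarith)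

theorem term_prime_pow {c : ℕ → ℂ} {p : ℕ} (hp : p.Prime) (s : ℂ) (k : ℕ) :
    LSeries.term c s (p ^ k) = c (p ^ k) * ((p : ℂ) ^ (-s)) ^ k := by
  rw [LSeries.term_of_ne_zero (pow_ne_zero k hp.ne_zero), cpow_neg, inv_pow, div_eq_mul_inv]
  congr 2
  induction k with
  | zero => simp
  | succ k ih => rw [pow_succ p, Nat.cast_mul, natCast_mul_natCast_cpow, ih, pow_succ]

/-- The quotient is a finite Euler product to the right of `θ`. -/
theorem hasSum_quotSeries (ha : LocalFactors a θ) (hb : LocalFactors b θ) (ha1 : a 1 = 1)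
    (hb1 : b 1 = 1) {s : ℂ} (hs : θ < s.re) :
    LSeriesSummable (quotSeries a b S) s ∧ LSeries (quotSeries a b S) s =
      ∏ p ∈ S with p.Prime, locSeries a p ((p : ℂ) ^ (-s)) / locSeries b p ((p : ℂ) ^ (-s)) := by
  set f : ℕ → ℂ := LSeries.term (quotSeries a b S) s
  have hM : (quotSeries a b S).IsMultiplicative := isMultiplicative_quotSeries
  have hf1 : f 1 = 1 := by simp [f, LSeries.term_of_ne_zero, hM.map_one]
  have hmul : ∀ {m n : ℕ}, Nat.Coprime m n → f (m * n) = f m * f n := fun {m n} hmn => by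
    rcases eq_or_ne m 0 with rfl | hm
    · simp [f]
    rcases eq_or_ne n 0 with rfl | hn
    · simp [f]
    simp only [f, LSeries.term_of_ne_zero (mul_ne_zero hm hn), LSeries.term_of_ne_zero hm,
      LSeries.term_of_ne_zero hn, hM.map_mul_of_coprime hmn, Nat.cast_mul,
      natCast_mul_natCast_cpow]
    rw [mul_div_mul_comm]
  have hpow : ∀ {p : ℕ}, p.Prime → ∀ k, f (p ^ k) =
      locWeight a b S p k * ((p : ℂ) ^ (-s)) ^ k := fun {p} hp k => by
    simp only [f]
    rw [term_prime_pow hp, quotSeries_prime_pow ha1 hb1 hp]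
  have hloc : ∀ {p : ℕ}, p.Prime → p ∈ S → HasSum (fun k => f (p ^ k))
      (locSeries a p ((p : ℂ) ^ (-s)) / locSeries b p ((p : ℂ) ^ (-s))) := fun {p} hp hpS =>
    (hasSum_quotCoeff ha hb hp (norm_prime_cpow_lt hp hs)).congr_fun fun k => by
      rw [hpow hp k, locWeight, if_pos hpS]
  have hsum : ∀ {p : ℕ}, p.Prime → Summable fun k : ℕ => ‖f (p ^ k)‖ := fun {p} hp => by
    by_cases hpS : p ∈ S
    · exact (hloc hp hpS).summable.norm
    · refine summable_of_ne_finset_zero (s := {0}) fun k hk => ?_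
      simp at hk
      rw [hpow hp k, locWeight, if_neg hpS, if_neg hk, zero_mul, norm_zero]
  obtain ⟨h1, h2⟩ := EulerProduct.summable_and_hasSum_factoredNumbers_prod_filter_prime_tsum
    hf1 hmul hsum S
  have hsupp : Function.support f ⊆ Nat.factoredNumbers S := fun n hn => by
    by_contra hnot
    refine hn ?_
    rcases eq_or_ne n 0 with rfl | hn0
    · simp [f]
    simp [f, LSeries.term_of_ne_zero hn0, quotSeries_eq_zero hnot]
  have h3 := (hasSum_subtype_iff_of_support_subset hsupp).1 h2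
  refine ⟨h3.summable, h3.tsum_eq.trans (Finset.prod_congr rfl fun p hp => ?_)⟩
  rw [Finset.mem_filter] at hp
  exact (hloc hp.2 hp.1).tsum_eq

theorem quotSeries_inverse (ha : LocalFactors a θ) (hb : LocalFactors b θ) (ha1 : a 1 = 1)
    (hb1 : b 1 = 1) {s : ℂ} (hs : θ < s.re) :
    LSeries (quotSeries a b S) s * LSeries (quotSeries b a S) s = 1 := by
  rw [(hasSum_quotSeries ha hb ha1 hb1 hs).2, (hasSum_quotSeries hb ha hb1 ha1 hs).2,
    ← Finset.prod_mul_distrib]
  refine Finset.prod_eq_one fun p hp => ?_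
  rw [Finset.mem_filter] at hp
  have hX := norm_prime_cpow_lt hp.2 hs
  have := (hasSum_locSeries ha hp.2 hX).2
  have := (hasSum_locSeries hb hp.2 hX).2
  field_simp

theorem quotSeries_local_ne_zero (ha : LocalFactors a θ) (hb : LocalFactors b θ) (ha1 : a 1 = 1)
    (hb1 : b 1 = 1) {p : ℕ} (hp : p.Prime) {X : ℂ} (hX : ‖X‖ < (p : ℝ) ^ (-θ)) :
    ∑' k, quotSeries a b S (p ^ k) * X ^ k ≠ 0 := by
  simp only [quotSeries_prime_pow ha1 hb1 hp]
  by_cases hpS : p ∈ S
  · simp only [locWeight, if_pos hpS]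
    rw [(hasSum_quotCoeff ha hb hp hX).tsum_eq]
    exact div_ne_zero (hasSum_locSeries ha hp hX).2 (hasSum_locSeries hb hp hX).2
  · rw [tsum_eq_single 0 fun k hk => by simp [locWeight, hpS, hk]]
    simp [locWeight, hpS]

end FA.SelbergMultiplicity

end
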